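import Mathlib
import Fermat.Agent.LT.T5.H29.TwFinite
import Fermat.Agent.LT.T7.H193.NatMatchSpec

/-!
# Row LT, tower T7, node T7.L2.1 `SupplyC`, sub-station NAT-MATCH, LEAF NM.2 = JOINT-INT
# (helper890, registry row 2585): PROVED

OFF-MAIN.  `jointIntC890 (K) : T7.H193.JointIntC K` VERBATIM vs `T7/H193/NatMatchSpec.lean`
(helper193@2b431d43c, sha256 4d7f0df5).  No hole, nothing assumed.

Proof (the proof of T5.07 by helper29, `T5/H29/TwFinite.lean`, with a parameter).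
* `Θ` = the indicator function of `A = {g : ∃ t ∈ D, φ (g a(t)⁻¹) ≠ 0}`: compact support
  (`A ⊆ tsupport φ · a(closure D)`), `σ`-regular (every translate is); `TwBoundC` for `Θ` gives
  `(S, M)` which serve for ALL the translates `trl193 (a t) φ`, `t ∈ D`;
* `lintegral_twTerm_le890`: for a continuous bounded `ψ` with the bound `(S, M)`:
  `∫⁻_{Fδ} ‖twTerm ψ δ x‖ₑ ≤ #S · (2M+1) C · μ(F)` (the orbit unfolding of helper29, with the
  constant made explicit);
* on `G × D` the function is the finite sum `∑_{|m| ≤ M} φ (x⁻¹ δ σ(x) r^m a(t)⁻¹)`, jointly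
  continuous; Tonelli.
-/

set_option autoImplicit false

open IsDedekindDomain NumberField MeasureTheory
open scoped MatrixGroups Pointwise ENNReal

noncomputable section

namespace Fermat.Agent.LT.T7.H890

open Fermat.Agent.LT.H556.A0 Fermat.Agent.LT.T5 Fermat.Agent.LT Fermat.Agent.LT.T5.H29
open Fermat.Agent.LT.T7.H193

attribute [local instance] Fermat.Agent.LT.T5.instMeasurableSpaceG
attribute [local instance] Fermat.Agent.LT.T5.H29.ratAction29

variable {K : Type} [Field K] [NumberField K]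

/-! ## 1. The orbit unfolding with an explicit constant -/

/-- The bound of helper29 (`leafTwFinite_of_twBound`) with the constant made explicit. -/
theorem lintegral_twTerm_le890 (hT : T1.T1Out K) (hRS : RaySlabC K) {s : AdelicAut K}
    {𝔫 : Ideal (𝓞 K)} {μ : Measure (G K)} {F : Set (G K)} {r : G K}
    (hF : IsFrame μ F) (hP : AutPreserves s 𝔫 μ r) (S : Finset (GL (Fin 2) K)) (M : ℕ)
    {ψ : G K → ℂ} (hψ : Continuous ψ) {C : ℝ} (hC : ∀ g : G K, ‖ψ g‖ ≤ C)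
    (hSM : ∀ x : G K, ∃ γ₀ : GL (Fin 2) K, ∀ (δ : GL (Fin 2) K) (m : ℤ),
      ψ (x⁻¹ * ratG δ * s.onG x * r ^ m) ≠ 0 → m.natAbs ≤ M ∧ γ₀⁻¹ * δ * s.onRat γ₀ ∈ S)
    (δ : GL (Fin 2) K) (Fδ : Set (G K)) (hFδ : IsTwDomain s δ Fδ) :
    ∫⁻ x in Fδ, ‖twTerm r s ψ δ x‖ₑ ∂μ
      ≤ S.card * ENNReal.ofReal ((2 * M + 1 : ℕ) * C) * μ F := by
  classical
  have hM : ∀ (x : G K) (δ : GL (Fin 2) K) (m : ℤ),
      ψ (x⁻¹ * ratG δ * s.onG x * r ^ m) ≠ 0 → m.natAbs ≤ M := fun x δ m h => by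
    obtain ⟨γ₀, hγ₀⟩ := hSM x
    exact (hγ₀ δ m h).1
  have hconj : ∀ (x : G K) (δ : GL (Fin 2) K), twTerm r s ψ δ x ≠ 0 →
      ∃ γ₀ : GL (Fin 2) K, ∀ δ' : GL (Fin 2) K, twTerm r s ψ δ' x ≠ 0 →
        γ₀⁻¹ * δ' * s.onRat γ₀ ∈ S := fun x _ _ => by
    obtain ⟨γ₀, hγ₀⟩ := hSM x
    refine ⟨γ₀, fun δ' hδ' => ?_⟩
    obtain ⟨m, hm⟩ := exists_ne_zero_of_twTerm29 hM δ' x hδ'
    exact (hγ₀ δ' m hm).2
  have hBorel : BorelSpace (G K) := borelSpace_G29 K
  have hcount : Countable (GL (Fin 2) K) := countable_GL29 K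
  have hcountΔ : Countable (TwAct29 s) := countable_twAct29 s
  have hMC : MeasurableConstSMul (GL (Fin 2) K) (G K) := measurableConstSMul29 K
  have hSC : SecondCountableTopology (G K) := hT.locComp.2.2.2
  obtain ⟨-, hslab⟩ := hRS hT.adNorm
  have hHaar : μ.IsHaarMeasure := hF.haar
  have hinv : SMulInvariantMeasure (GL (Fin 2) K) (G K) (μ.restrict (slab K)) :=
    smulInvariant_restrict29 hslab μ
  have hFD : IsFundamentalDomain (GL (Fin 2) K) F (μ.restrict (slab K)) :=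
    isFundamentalDomain_of_strict_top29 hT.adNorm μ hF.meas hF.sub hF.strict
  have hstrict' : ∀ g ∈ slab K,
      ∃! γ : MulAction.stabilizer (GL (Fin 2) K) (⟨δ⟩ : TwAct29 s),
        ratG (γ : GL (Fin 2) K) * g ∈ Fδ := by
    intro g hg
    obtain ⟨γ, hγ, hu⟩ := hFδ.strict g hg
    refine ⟨⟨γ.1, (mem_stabilizer_iff29 s δ γ.1).2 γ.2⟩, hγ, fun γ' hγ' => ?_⟩
    have h := hu ⟨γ'.1, (mem_stabilizer_iff29 s δ γ'.1).1 γ'.2⟩ hγ'
    have h' : (γ' : GL (Fin 2) K) = (γ : GL (Fin 2) K) := congrArg Subtype.val h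
    exact Subtype.ext h'
  have hFDδ : IsFundamentalDomain (MulAction.stabilizer (GL (Fin 2) K) (⟨δ⟩ : TwAct29 s)) Fδ
      (μ.restrict (slab K)) :=
    isFundamentalDomain_of_strict29 hT.adNorm μ _ hFδ.meas hFδ.sub hstrict'
  have hunf := Fermat.Agent.LT.H29.lintegral_enorm_orbit_unfold29 (μ := μ.restrict (slab K)) hFD
    (fun (δ' : TwAct29 s) (x : G K) => twTerm r s ψ δ'.val x)
    (fun γ δ' x => twTerm_smul29 hP γ δ' x) ⟨δ⟩ hFDδ
  have hcont : ∀ δ' : GL (Fin 2) K, Continuous (twTerm r s ψ δ') := fun δ' =>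
    continuous_twTerm29 hP hψ hM δ'
  have hptw : ∀ x : G K, ∑' δ' : TwAct29 s, ‖twTerm r s ψ δ'.val x‖ₑ
      ≤ S.card * ENNReal.ofReal ((2 * M + 1 : ℕ) * C) := by
    intro x
    by_cases hx : ∃ δ' : GL (Fin 2) K, twTerm r s ψ δ' x ≠ 0
    · obtain ⟨δ₁, hδ₁⟩ := hx
      obtain ⟨γ₀, hγ₀⟩ := hconj x δ₁ hδ₁
      let T : Finset (TwAct29 s) :=
        S.image fun η => (⟨γ₀ * η * (s.onRat γ₀)⁻¹⟩ : TwAct29 s)
      have hT0 : ∀ δ' : TwAct29 s, δ' ∉ T → ‖twTerm r s ψ δ'.val x‖ₑ = 0 := by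
        intro δ' hδ'
        by_contra h
        apply hδ'
        have h' : twTerm r s ψ δ'.val x ≠ 0 := fun h0 => h (by rw [h0, enorm_zero])
        rw [Finset.mem_image]
        refine ⟨γ₀⁻¹ * δ'.val * s.onRat γ₀, hγ₀ δ'.val h', ?_⟩
        apply TwAct29.ext'
        show γ₀ * (γ₀⁻¹ * δ'.val * s.onRat γ₀) * (s.onRat γ₀)⁻¹ = δ'.val
        simp [mul_assoc]
      rw [tsum_eq_sum hT0]
      calc ∑ δ' ∈ T, ‖twTerm r s ψ δ'.val x‖ₑ
          ≤ ∑ _δ' ∈ T, ENNReal.ofReal ((2 * M + 1 : ℕ) * C) := by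
            refine Finset.sum_le_sum fun δ' _ => ?_
            rw [← ofReal_norm]
            exact ENNReal.ofReal_le_ofReal (norm_twTerm_le29 hC hM δ'.val x)
        _ = T.card * ENNReal.ofReal ((2 * M + 1 : ℕ) * C) := by
            rw [Finset.sum_const, nsmul_eq_mul]
        _ ≤ S.card * ENNReal.ofReal ((2 * M + 1 : ℕ) * C) := by
            gcongr
            exact Finset.card_image_le
    · push Not at hx
      have : ∀ δ' : TwAct29 s, ‖twTerm r s ψ δ'.val x‖ₑ = 0 := fun δ' => by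
        rw [hx δ'.val, enorm_zero]
      simp only [this, tsum_zero]
      exact bot_le
  have hres : (μ.restrict (slab K)).restrict Fδ = μ.restrict Fδ := by
    rw [Measure.restrict_restrict hFδ.meas, Set.inter_eq_left.2 hFδ.sub]
  have hmeasΔ : ∀ δ' : TwAct29 s,
      AEMeasurable (fun x => ‖twTerm r s ψ δ'.val x‖ₑ) ((μ.restrict (slab K)).restrict F) :=
    fun δ' => (hcont δ'.val).measurable.enorm.aemeasurable
  rw [← hres]
  have h1 : ∫⁻ x in Fδ, ‖twTerm r s ψ δ x‖ₑ ∂(μ.restrict (slab K))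
      = ∑' δ' : MulAction.orbit (GL (Fin 2) K) (⟨δ⟩ : TwAct29 s),
          ∫⁻ x in F, ‖twTerm r s ψ (δ' : TwAct29 s).val x‖ₑ ∂(μ.restrict (slab K)) :=
    hunf.symm
  rw [h1]
  calc ∑' δ' : MulAction.orbit (GL (Fin 2) K) (⟨δ⟩ : TwAct29 s),
        ∫⁻ x in F, ‖twTerm r s ψ (δ' : TwAct29 s).val x‖ₑ ∂(μ.restrict (slab K))
      ≤ ∑' δ' : TwAct29 s, ∫⁻ x in F, ‖twTerm r s ψ δ'.val x‖ₑ ∂(μ.restrict (slab K)) :=
        ENNReal.tsum_comp_le_tsum_of_injective Subtype.val_injective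
          (fun δ' : TwAct29 s => ∫⁻ x in F, ‖twTerm r s ψ δ'.val x‖ₑ ∂(μ.restrict (slab K)))
    _ = ∫⁻ x in F, ∑' δ' : TwAct29 s, ‖twTerm r s ψ δ'.val x‖ₑ ∂(μ.restrict (slab K)) :=
        (lintegral_tsum hmeasΔ).symm
    _ ≤ ∫⁻ _x in F, S.card * ENNReal.ofReal ((2 * M + 1 : ℕ) * C) ∂(μ.restrict (slab K)) :=
        lintegral_mono fun x => hptw x
    _ = S.card * ENNReal.ofReal ((2 * M + 1 : ℕ) * C) * (μ.restrict (slab K)) F := by
        rw [lintegral_const, Measure.restrict_apply MeasurableSet.univ, Set.univ_inter]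
    _ ≤ S.card * ENNReal.ofReal ((2 * M + 1 : ℕ) * C) * μ F := by
        gcongr
        exact Measure.restrict_le_self

/-! ## 2. The union of the supports of the translates -/

/-- `A = {g : ∃ t ∈ D, φ (g a(t)⁻¹) ≠ 0}`. -/
def suppSet890 (a : (InfinitePlace K → ℝ) → G K) (D : Set (InfinitePlace K → ℝ))
    (φ : G K → ℂ) : Set (G K) :=
  {g | ∃ t ∈ D, φ (g * (a t)⁻¹) ≠ 0}

open Classical in
/-- `Θ`: the indicator function of `A`. -/
def theta890 (a : (InfinitePlace K → ℝ) → G K) (D : Set (InfinitePlace K → ℝ))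
    (φ : G K → ℂ) : G K → ℂ :=
  (suppSet890 a D φ).indicator (fun _ => (1 : ℂ))

theorem theta_ne_zero890 {a : (InfinitePlace K → ℝ) → G K} {D : Set (InfinitePlace K → ℝ)}
    {φ : G K → ℂ} {g : G K} (h : theta890 a D φ g ≠ 0) : g ∈ suppSet890 a D φ := by
  by_contra hg
  exact h (Set.indicator_of_notMem hg _)

theorem theta_of_mem890 {a : (InfinitePlace K → ℝ) → G K} {D : Set (InfinitePlace K → ℝ)}
    {φ : G K → ℂ} {g : G K} (h : g ∈ suppSet890 a D φ) : theta890 a D φ g ≠ 0 := by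
  rw [theta890, Set.indicator_of_mem h]
  exact one_ne_zero

theorem hasCompactSupport_theta890 [T2Space (G K)] {a : (InfinitePlace K → ℝ) → G K}
    (ha : Continuous a) {D : Set (InfinitePlace K → ℝ)} (hD : Bornology.IsBounded D)
    {φ : G K → ℂ} (hφ : HasCompactSupport φ) : HasCompactSupport (theta890 a D φ) := by
  have hcD : IsCompact (closure D) := hD.isCompact_closure
  have hK : IsCompact (tsupport φ * a '' closure D) := IsCompact.mul hφ (hcD.image ha)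
  apply HasCompactSupport.intro hK
  intro g hg
  by_contra hne
  obtain ⟨t, ht, hφt⟩ := theta_ne_zero890 hne
  apply hg
  rw [Set.mem_mul]
  exact ⟨g * (a t)⁻¹, subset_tsupport _ hφt, a t, Set.mem_image_of_mem _ (subset_closure ht),
    by simp⟩

theorem isTwRegular_theta890 {s : AdelicAut K} {l : ℕ} {k : Subfield K}
    {a : (InfinitePlace K → ℝ) → G K} {D : Set (InfinitePlace K → ℝ)} {φ : G K → ℂ}
    (hreg : ∀ t ∈ D, IsTwRegular s l k (trl193 (a t) φ)) :
    IsTwRegular s l k (theta890 a D φ) := by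
  intro x δ z hz hne
  obtain ⟨t, ht, hφt⟩ := theta_ne_zero890 hne
  exact hreg t ht x δ z hz hφt

/-! ## 3. The leaf -/

/-- **LEAF NM.2 = JOINT-INT**, verbatim. -/
theorem jointIntC890 (K : Type) [Field K] [NumberField K] : JointIntC K := by
  intro hT hRS s l k 𝔫 hB hcyc μ F r hF hr hP a D ha hDm hDb φ hφc hφs hreg δ Fδ hFδ
  classical
  have : T2Space (G K) := hT.locComp.2.2.1
  have : SecondCountableTopology (G K) := hT.locComp.2.2.2
  have : LocallyCompactSpace (G K) := hT.locComp.2.1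
  have : BorelSpace (G K) := borelSpace_G29 K
  have : μ.IsHaarMeasure := hF.haar
  obtain ⟨S, M, hSM⟩ := hB hcyc μ r hr hP (theta890 a D φ)
    (hasCompactSupport_theta890 ha hDb hφs) (isTwRegular_theta890 hreg)
  obtain ⟨C, hC⟩ : ∃ C : ℝ, ∀ g : G K, ‖φ g‖ ≤ C := hφc.bounded_above_of_compact_support hφs
  -- the bound serves for all the translates
  have hSMt : ∀ t ∈ D, ∀ x : G K, ∃ γ₀ : GL (Fin 2) K, ∀ (δ : GL (Fin 2) K) (m : ℤ),
      trl193 (a t) φ (x⁻¹ * ratG δ * s.onG x * r ^ m) ≠ 0 →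
        m.natAbs ≤ M ∧ γ₀⁻¹ * δ * s.onRat γ₀ ∈ S := by
    intro t ht x
    obtain ⟨γ₀, hγ₀⟩ := hSM x
    exact ⟨γ₀, fun δ m h => hγ₀ δ m (theta_of_mem890 ⟨t, ht, h⟩)⟩
  have hMt : ∀ t ∈ D, ∀ (x : G K) (δ : GL (Fin 2) K) (m : ℤ),
      trl193 (a t) φ (x⁻¹ * ratG δ * s.onG x * r ^ m) ≠ 0 → m.natAbs ≤ M := by
    intro t ht x δ m h
    obtain ⟨γ₀, hγ₀⟩ := hSMt t ht x
    exact (hγ₀ δ m h).1
  -- the continuous model
  set ft : G K × (InfinitePlace K → ℝ) → ℂ := fun p =>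
    ∑ m ∈ Finset.Icc (-(M : ℤ)) (M : ℤ),
      φ (p.1⁻¹ * ratG δ * s.onG p.1 * r ^ m * (a p.2)⁻¹) with hft
  have hftc : Continuous ft := by
    refine continuous_finsetSum _ fun m _ => hφc.comp ?_
    exact ((((continuous_fst.inv.mul continuous_const).mul (hP.cont.comp continuous_fst)).mul
      continuous_const).mul (ha.comp continuous_snd).inv)
  have heq : ∀ p : G K × (InfinitePlace K → ℝ), p.2 ∈ D →
      twTerm r s (trl193 (a p.2) φ) δ p.1 = ft p := fun p hp =>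
    twTerm_eq_sum29 (hMt p.2 hp) δ p.1
  have hae : (fun p : G K × (InfinitePlace K → ℝ) => twTerm r s (trl193 (a p.2) φ) δ p.1)
      =ᵐ[(μ.restrict Fδ).prod (volume.restrict D)] ft := by
    have h1 : ∀ᵐ t ∂(volume.restrict D), t ∈ D := ae_restrict_mem hDm
    have h2 := (Measure.quasiMeasurePreserving_snd (μ := μ.restrict Fδ)
      (ν := volume.restrict D)).ae h1
    filter_upwards [h2] with p hp using heq p hp
  refine (integrable_congr hae).mpr ⟨hftc.aestronglyMeasurable, ?_⟩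
  rw [hasFiniteIntegral_iff_enorm, lintegral_prod_symm _ hftc.measurable.enorm.aemeasurable]
  calc ∫⁻ t, ∫⁻ x, ‖ft (x, t)‖ₑ ∂(μ.restrict Fδ) ∂(volume.restrict D)
      ≤ ∫⁻ _t, S.card * ENNReal.ofReal ((2 * M + 1 : ℕ) * C) * μ F ∂(volume.restrict D) := by
        apply lintegral_mono_ae
        filter_upwards [ae_restrict_mem hDm] with t ht
        have h3 := lintegral_twTerm_le890 hT hRS hF hP S M
          (ψ := trl193 (a t) φ) (hφc.comp (continuous_id.mul continuous_const))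
          (C := C) (fun g => hC _) (hSMt t ht) δ Fδ hFδ
        refine le_trans (le_of_eq ?_) h3
        apply lintegral_congr
        intro x
        rw [heq (x, t) ht]
    _ = S.card * ENNReal.ofReal ((2 * M + 1 : ℕ) * C) * μ F * volume D := by
        rw [lintegral_const, Measure.restrict_apply MeasurableSet.univ, Set.univ_inter]
    _ < ⊤ := by
        refine ENNReal.mul_lt_top (ENNReal.mul_lt_top
          (ENNReal.mul_lt_top (ENNReal.natCast_lt_top _) ENNReal.ofReal_lt_top) hF.finite) ?_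
        exact hDb.measure_lt_top

end Fermat.Agent.LT.T7.H890

end
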